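import Fermat.Agent.S37.Red.ModG
import Fermat.Agent.S37.Red.H940.MainStatement
import Fermat.Agent.S37.Red.H208.H1
import Fermat.Agent.S37.Red.H217.Sat
import Fermat.Agent.S37.Red.H759.PassageDatum
import Fermat.Agent.S37.H568.ValueGroup
import Fermat.Agent.S37.H448.AscentMod
import Fermat.Agent.S37.H98.Gen
import Fermat.Agent.S18.H739.ModFinite

/-!
# S37 / node_rim — FINAL GLUE (squad-lead helper39)

`ReductionInputsModL A M` (= node `node_rim` of the S37 board) for EVERY level `M` and every
valuation subring `A` of `ℚ̄` over a prime `ℓ ∤ M`, from ONE leaf: normality of the special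
fibre of the two `j`-charts,

* `LiftFin A M` : every `z ∈ F_{M,k}` integral over `k[j̄]` is `c.sp` for some `A`-integral
  `q`-series `c : Core.IntElt A M` integral over `A[j]` (`c.IsFin`);
* `LiftInf A M` : the same with `j⁻¹` (`c.IsInf`);

or, by helper448's ascent, from the same statement over `𝔽_ℓ` only (`BaseFin`, `BaseInf`:
`z ∈ modularFunctionFieldFullC (ZMod ℓ) M`).

Chain (everything else is landed and is discharged here):
`Red.node_rim_of_modG` (helper40) ⇐ `Red.H940.mainStatement` (helper940/160/399),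
`H568.valueGroupHyp_modular` (helper568), `Red.H208.good_H1` (helper208),
`Red.H217.good_of` (helper217), `H98.gen` (helper98/700), `H448.lift_*_of_base_liesOver`
(helper448), `Red.H759` dictionary (helper759).
-/

set_option autoImplicit false
set_option synthInstance.maxHeartbeats 400000

noncomputable section

namespace Fermat.Agent.S37.Rim.Node

open AlgebraicCurve ModularCurve HahnSeries IsLocalRing Polynomial
open Fermat.Agent.S37 Fermat.Agent.S37.Red Fermat.Agent.S37.Core

section Generic

variable {R S : Type*} [CommRing R] [CommRing S]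

/-- integrality over a subring contained in the range of `f` is integrality w.r.t. `f` -/
theorem isIntegralElem_of_isIntegral_subring [Nontrivial S] (f : R →+* S) (B : Subring S)
    (hB : ∀ b ∈ B, ∃ r, f r = b) {z : S} (hz : IsIntegral B z) : f.IsIntegralElem z := by
  obtain ⟨P, hP, hcoeff, hPz⟩ := (H759.isIntegral_subring_iff B z).mp hz
  have hlift : P ∈ Polynomial.lifts f := by
    rw [Polynomial.lifts_iff_coeff_lifts]
    intro n
    obtain ⟨r, hr⟩ := hB _ (hcoeff n)
    exact ⟨r, hr⟩
  obtain ⟨q, hq, -, hqm⟩ := Polynomial.lifts_and_degree_eq_and_monic hlift hP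
  refine ⟨q, hqm, ?_⟩
  rw [Polynomial.eval₂_eq_eval_map, hq, hPz]

/-- integrality w.r.t. `f` is integrality over any subring containing the range of `f` -/
theorem isIntegral_subring_of_isIntegralElem (f : R →+* S) (B : Subring S)
    (hB : ∀ r, f r ∈ B) {z : S} (hz : f.IsIntegralElem z) : IsIntegral B z := by
  obtain ⟨p, hp, hpz⟩ := hz
  rw [H759.isIntegral_subring_iff]
  refine ⟨p.map f, hp.map f, fun i => ?_, ?_⟩
  · rw [Polynomial.coeff_map]
    exact hB _
  · rw [Polynomial.eval_map, hpz]

/-- push-forward of integrality along a ring homomorphism -/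
theorem isIntegralElem_comp {T : Type*} [CommRing T] (f : R →+* S) (g : S →+* T) {z : S}
    (hz : f.IsIntegralElem z) : (g.comp f).IsIntegralElem (g z) := by
  obtain ⟨p, hp, hpz⟩ := hz
  refine ⟨p, hp, ?_⟩
  rw [← Polynomial.hom_eval₂, hpz, map_zero]

end Generic

section Series

variable {R : Type*} [CommRing R]

/-- the image under `coeffMap f` of the range of `evalSer R u` lies in every subring containing
the constants `C (f r)` and `coeffMap f u` -/
theorem coeffMap_evalSer_mem {S : Type*} [CommRing S] (f : R →+* S) (u : LaurentSeries R)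
    (B : Subring (LaurentSeries S))
    (hC : ∀ r : R, (HahnSeries.C (f r) : LaurentSeries S) ∈ B) (hu : coeffMap f u ∈ B)
    (p : R[X]) : coeffMap f (H448.evalSer R u p) ∈ B := by
  have h : H448.evalSer R u p =
      Polynomial.eval₂ (HahnSeries.C : R →+* LaurentSeries R) u p := rfl
  rw [h, Polynomial.eval₂_eq_sum_range, map_sum]
  refine sum_mem fun i _ => ?_
  rw [map_mul, map_pow, H448.coeffMap_C']
  exact mul_mem (hC _) (pow_mem hu i)

/-- the subring generated by the constants and `u` lies in the range of `evalSer R u` -/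
theorem exists_evalSer_eq (u : LaurentSeries R) (C₀ : Set (LaurentSeries R))
    (hC : ∀ c ∈ C₀, ∃ r : R, (HahnSeries.C r : LaurentSeries R) = c) :
    ∀ b ∈ Subring.closure (C₀ ∪ {u}), ∃ p : R[X], H448.evalSer R u p = b := by
  intro b hb
  have hle : Subring.closure (C₀ ∪ {u}) ≤ (H448.evalSer R u).range := by
    rw [Subring.closure_le]
    rintro x (hx | hx)
    · obtain ⟨r, rfl⟩ := hC x hx
      exact ⟨Polynomial.C r, by
        show Polynomial.eval₂ (HahnSeries.C : R →+* LaurentSeries R) u (Polynomial.C r) = _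
        rw [Polynomial.eval₂_C]⟩
    · rw [Set.mem_singleton_iff] at hx
      subst hx
      exact ⟨Polynomial.X, by
        show Polynomial.eval₂ (HahnSeries.C : R →+* LaurentSeries R) x Polynomial.X = _
        rw [Polynomial.eval₂_X]⟩
  exact hle hb

end Series

/-! ## The leaf -/

/-- **LEAF, finite chart**: normality of the special fibre of the chart `j ≠ ∞`. -/
def LiftFin (A : ValuationSubring Qb) (M : ℕ) : Prop :=
  ∀ z : FNk A M, (H448.evalSer (kA A) (jqModC (kA A))).IsIntegralElem
      (z : LaurentSeries (kA A)) →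
    ∃ c : IntElt A M, c.IsFin ∧ c.sp = z

/-- **LEAF, chart at infinity**: normality of the special fibre of the chart `j ≠ 0`. -/
def LiftInf (A : ValuationSubring Qb) (M : ℕ) : Prop :=
  ∀ z : FNk A M, (H448.evalSer (kA A) (jqModC (kA A))⁻¹).IsIntegralElem
      (z : LaurentSeries (kA A)) →
    ∃ c : IntElt A M, c.IsInf ∧ c.sp = z

/-- **LEAF over `𝔽_ℓ`, finite chart** (hypothesis `hbase` of `H448.lift_fin_of_base`). -/
def BaseFin (ℓ : ℕ) [Fact ℓ.Prime] (A : ValuationSubring Qb) (M : ℕ) : Prop :=
  ∀ (φ : ZMod ℓ →+* kA A) (w : LaurentSeries (ZMod ℓ)),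
    w ∈ modularFunctionFieldFullC (ZMod ℓ) M →
    (H448.evalSer (ZMod ℓ) (jqModC (ZMod ℓ))).IsIntegralElem w →
    ∃ c : IntElt A M, c.IsFin ∧ coeffMap (residue A) c.y = coeffMap φ w

/-- **LEAF over `𝔽_ℓ`, chart at infinity** (hypothesis `hbase` of `H448.lift_inf_of_base`). -/
def BaseInf (ℓ : ℕ) [Fact ℓ.Prime] (A : ValuationSubring Qb) (M : ℕ) : Prop :=
  ∀ (φ : ZMod ℓ →+* kA A) (w : LaurentSeries (ZMod ℓ)),
    w ∈ modularFunctionFieldFullC (ZMod ℓ) M →
    (H448.evalSer (ZMod ℓ) (jqModC (ZMod ℓ))⁻¹).IsIntegralElem w →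
    ∃ c : IntElt A M, c.IsInf ∧ coeffMap (residue A) c.y = coeffMap φ w

section Pre

variable {M : ℕ} [NeZero M] {A : ValuationSubring Qb}

theorem liftFin_of_base {ℓ : ℕ} [Fact ℓ.Prime] (hA : A.LiesOverPrime ℓ)
    (h : BaseFin ℓ A M) : LiftFin A M :=
  fun z hz => H448.lift_fin_of_base_liesOver A hA h z hz

theorem liftInf_of_base {ℓ : ℕ} [Fact ℓ.Prime] (hA : A.LiesOverPrime ℓ)
    (h : BaseInf ℓ A M) : LiftInf A M :=
  fun z hz => H448.lift_inf_of_base_liesOver A hA h z hz

/-! ## Dictionary for the datum `modG` -/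

section Dict

variable (hVG : ModVG M A) (x : LaurentSeries A)
  (hx : coeffMap A.subtype x ∈ modularFunctionFieldBar M)
  (hxk : coeffMap (residue A) x ∈ modularFunctionFieldFullC (kA A) M)
  (htr : Transcendental (kA A) (⟨coeffMap (residue A) x, hxk⟩ : FNk A M))

theorem modG_x_coe :
    (((modG hVG x hx hxk htr).x : FN M) : LaurentSeries Qb) = coeffMap A.subtype x := rfl

theorem modG_xk_eq :
    (modG hVG x hx hxk htr).xk = ⟨coeffMap (residue A) x, hxk⟩ :=
  modρ_ofSeries hVG x hx hxk

theorem modG_xk_coe :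
    (((modG hVG x hx hxk htr).xk : FNk A M) : LaurentSeries (kA A)) =
      coeffMap (residue A) x := by
  rw [modG_xk_eq]

/-- **(H3) for the datum from (H3) in `q`-expansion language**, any coordinate `t` (`= x` or
`x⁻¹`), with `u ∈ A((q))` the `q`-expansion of `t`. -/
theorem lift_chart_of_series (t : FN M) (s : FNk A M) (u : LaurentSeries A)
    (hut : coeffMap A.subtype u = (t : LaurentSeries Qb))
    (hlift : ∀ z : FNk A M,
      (H448.evalSer (kA A) (s : LaurentSeries (kA A))).IsIntegralElem
        (z : LaurentSeries (kA A)) →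
      ∃ c : IntElt A M, (H448.evalSer A u).IsIntegralElem c.y ∧ c.sp = z) :
    ∀ c ∈ (modG hVG x hx hxk htr).chartk s, ∃ b ∈ (modG hVG x hx hxk htr).chart t,
      ∃ hb : b ∈ (modG hVG x hx hxk htr).O, (modG hVG x hx hxk htr).ρ ⟨b, hb⟩ = c := by
  intro c hc
  have h1 := H759.isIntegral_coe_of_mem_chartk (modG hVG x hx hxk htr) hc
  have h2 : (H448.evalSer (kA A) (s : LaurentSeries (kA A))).IsIntegralElem
      (c : LaurentSeries (kA A)) := by
    refine isIntegralElem_of_isIntegral_subring _ _ ?_ h1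
    refine exists_evalSer_eq _ _ ?_
    rintro y ⟨a, rfl⟩
    exact ⟨a, (H448.algebraMap_laurent_eq_C (k₀ := kA A) (k := kA A) a).symm⟩
  obtain ⟨c₀, hc₀, hsp⟩ := hlift c h2
  obtain ⟨hO, hρ⟩ := modG_link hVG c₀.y c₀.mem c₀.memk
  refine ⟨⟨coeffMap A.subtype c₀.y, c₀.mem⟩, ?_, hO, ?_⟩
  · refine H759.mem_chart_of_isIntegral_coe (modG hVG x hx hxk htr) ?_
    have h3 := isIntegralElem_comp _ (coeffMap A.subtype) hc₀
    refine isIntegral_subring_of_isIntegralElem _ _ ?_ h3
    intro p
    show coeffMap A.subtype (H448.evalSer A u p) ∈ _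
    refine coeffMap_evalSer_mem _ _ _ ?_ ?_ p
    · intro r
      refine Subring.subset_closure (Or.inl ⟨r, ?_⟩)
      exact (H448.algebraMap_laurent_eq_C (k₀ := Qb) (k := Qb) (r : Qb)).symm
    · rw [hut]
      exact Subring.subset_closure (Or.inr rfl)
  · exact hρ.trans hsp

end Dict

end Pre

/-! ## The node -/

section Final

variable (M : ℕ) [NeZero M] (ℓ : ℕ) (hℓ : ℓ.Prime) (hℓM : ¬ ℓ ∣ M)
  (A : ValuationSubring Qb) (hA : A.LiesOverPrime ℓ)

include hℓ hℓM hA

theorem natCast_level_ne_zero : ((M : ℕ) : kA A) ≠ 0 := by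
  haveI : CharP (kA A) ℓ := H98.charP_residueField A ℓ hℓ hA
  intro h
  exact hℓM ((CharP.cast_eq_zero_iff (kA A) ℓ M).mp h)

theorem transcendental_jk : Transcendental (kA A) (jk M A) := by
  have h := Fermat.Agent.S18.H739.transcendental_jC (k := kA A) M
  have e : jk M A = ⟨jqModC (kA A), jqModC_mem_full (kA A) M⟩ :=
    Subtype.ext (coeffMap_jqModC (residue A))
  rw [e]
  exact h

/-- **NODE [RIM] from normality of the special fibre of the two `j`-charts** (`q`-expansion
language, over `A`).  No hypothesis on `ℓ` besides `ℓ ∤ M`. -/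
theorem node_rim_of_lift (hfin : LiftFin A M) (hinf : LiftInf A M) :
    ReductionInputsModL A M := by
  have hcore := H98.coreData_residueField M ℓ hℓ hℓM A hA
  have hVG : ModVG M A := H568.valueGroupHyp_modular hcore
  have htr : Transcendental (kA A) (jk M A) := transcendental_jk M ℓ hℓ hℓM A hA
  have hx := coeffMap_jqModC_mem_bar M A
  have hxk := coeffMap_jqModC_mem_fullC M A
  have hxG : (((modGj hVG htr).x : FN M) : LaurentSeries Qb) = jqModC Qb :=
    coeffMap_jqModC A.subtype
  have hxkG : (((modGj hVG htr).xk : FNk A M) : LaurentSeries (kA A)) = jqModC (kA A) := by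
    have := modG_xk_coe hVG (jqModC A) hx hxk htr
    exact this.trans (coeffMap_jqModC (residue A))
  obtain ⟨h1, h2, h3, h4⟩ := H208.good_H1 M A (natCast_level_ne_zero M ℓ hℓ hℓM A hA)
    (modGj hVG htr) hxG hxkG
  -- the inverse of `j` over `A`
  obtain ⟨c₀, ⟨u, hu, -⟩, -⟩ := hinf 0 (RingHom.isIntegralElem_zero _)
  have huniq : ∀ u' : LaurentSeries A, u' * jqModC A = 1 → u' = u := by
    intro u' hu'
    calc u' = u' * (u * jqModC A) := by rw [hu, mul_one]
      _ = (u' * jqModC A) * u := by ring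
      _ = u := by rw [hu', one_mul]
  have huQ : coeffMap A.subtype u = (jqModC Qb)⁻¹ := by
    have h := congrArg (coeffMap A.subtype) hu
    rw [map_mul, map_one, coeffMap_jqModC] at h
    exact eq_inv_of_mul_eq_one_left h
  have hgood : (modGj hVG htr).Good := by
    refine H217.good_of (modGj hVG htr) h1 h2 h3 h4 ?_ ?_
    · refine lift_chart_of_series hVG (jqModC A) hx hxk htr _ _ (jqModC A) rfl ?_
      intro z hz
      rw [hxkG] at hz
      exact hfin z hz
    · refine lift_chart_of_series hVG (jqModC A) hx hxk htr _ _ u ?_ ?_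
      · rw [huQ, ← hxG]
        rfl
      · intro z hz
        have e : (((modGj hVG htr).xk⁻¹ : FNk A M) : LaurentSeries (kA A)) =
            (jqModC (kA A))⁻¹ := by
          rw [← hxkG]
          rfl
        rw [e] at hz
        obtain ⟨c, ⟨u', hu', hc⟩, hsp⟩ := hinf z hz
        rw [huniq u' hu'] at hc
        exact ⟨c, hc, hsp⟩
  exact node_rim_of_modG H940.mainStatement hVG (jqModC A) hx hxk htr hgood
    (H98.gen M ℓ hℓ hℓM A hA)

/-- **NODE [RIM] from normality of the special fibre of the model over `ℤ_(ℓ)`** (the two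
`j`-charts, elements defined over `𝔽_ℓ`). -/
theorem node_rim_of_base [Fact ℓ.Prime] (hfin : BaseFin ℓ A M) (hinf : BaseInf ℓ A M) :
    ReductionInputsModL A M :=
  node_rim_of_lift M ℓ hℓ hℓM A hA (liftFin_of_base hA hfin) (liftInf_of_base hA hinf)

end Final

end Fermat.Agent.S37.Rim.Node
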