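import Fermat.Agent.S37.Rim.Spec
import Fermat.Agent.S37.H98.Gen
import Fermat.Agent.S18.H383.FF1Modular
import Fermat.Agent.S18.H905.ConstInst
import Fermat.Agent.Lib.RR.H864.FF1Modular

/-!
# S37 / node_rim — THE assembly (squad-lead helper39)

`node_rim_of_leaves` : `ReductionInputsModL A M` (= node `node_rim` of the S37 board) from the
three leaves `FCStatement`, `LPStatement`, `SEPStatement` of `Rim/Spec.lean`.

Everything else is discharged here from landed material:
* helper940's fibre-local core and atlas (`H940.exists_specialisesDivisors`),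
* `FF1` for `F_M` over `ℚ̄` (`Lib.RR.H864`) and for `F_{M,k}` over `k` (`S18.H383.ff1_residue`):
  degrees are `1`, zeros and poles are finite in number,
* existence of zeros and poles in characteristic `ℓ` (`S18.H905`),
* PGI (`S37.H98.gen`).
-/

set_option autoImplicit false
set_option synthInstance.maxHeartbeats 400000

noncomputable section

namespace Fermat.Agent.S37.Rim

open AlgebraicCurve ModularCurve HahnSeries IsLocalRing Fermat.Agent.S37.H940
open Fermat.Agent.Lib.RR

section Generic

variable {K F : Type*} [Field K] [Field F] [Algebra K F]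

/-- values exist at places of degree one -/
theorem exists_inMax_sub_of_deg (hdeg : ∀ v : Place K F, v.deg = 1) (P : Place K F) (f : F)
    (hf : 0 ≤ P.ord f) : ∃ c : K, InMax P (f - algebraMap K F c) :=
  exists_const_sub P (hdeg P) hf

/-- zeros and poles of a nonzero function are finite in number -/
theorem finite_ord_ne_zero [HasPrincipalDivisors K F] (u : F) (hu : u ≠ 0) :
    {P : Place K F | P.ord u ≠ 0}.Finite := by
  obtain ⟨D, hD, -⟩ := HasPrincipalDivisors.exists_divisor (K := K) u hu
  refine D.support.finite_toSet.subset ?_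
  intro P hP
  have : D P ≠ 0 := by rw [hD P]; exact hP
  simpa using this

theorem transcendental_sub_algebraMap {x : F} (hx : Transcendental K x) (c : K) :
    Transcendental K (x - algebraMap K F c) := by
  intro h
  apply hx
  have h2 : IsAlgebraic K (algebraMap K F c) := isAlgebraic_algebraMap c
  have := h.add h2
  rwa [sub_add_cancel] at this

theorem ne_zero_of_transcendental {x : F} (hx : Transcendental K x) : x ≠ 0 := by
  rintro rfl
  exact hx isAlgebraic_zero

end Generic

variable (M ℓ : ℕ) [NeZero M] (hℓ : ℓ.Prime) (hℓM : ¬ ℓ ∣ M)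
  (A : ValuationSubring Qb) (hA : A.LiesOverPrime ℓ)

include hℓ hℓM hA

theorem hchar_residue : ∀ p : ℕ, p.Prime → p ∣ M → (p : kA A) ≠ 0 := by
  intro p hp hpM
  refine Fermat.Agent.S18.H9.resChar _ A ℓ p hℓ hp hA ?_
  rintro rfl
  exact hℓM hpM

theorem transcendental_xk : Transcendental (kA A) (xk A M) :=
  Fermat.Agent.S18.H739.transcendental_jC (kA A) M

open Classical in
/-- the finite set of points of the special fibre over `c` -/
theorem exists_pts (c : Option (kA A)) :
    ∃ 𝔊 : Finset (Place (kA A) (FkM A M)), 𝔊.Nonempty ∧ ∀ Q, Q ∈ 𝔊 ↔ IsPt A M c Q := by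
  haveI : IsAlgClosed (kA A) := Fermat.Agent.S18.H9.resAlgClosed _ A
  haveI : FF1 (kA A) (FkM A M) := Fermat.Agent.S18.H383.ff1_residue M ℓ hℓ hℓM A hA
  have hchar := hchar_residue M ℓ hℓ hℓM A hA
  have hx := transcendental_xk M ℓ hℓ hℓM A hA
  cases c with
  | some c =>
    have ht := transcendental_sub_algebraMap hx c
    have h0 := ne_zero_of_transcendental ht
    have hfin := finite_ord_ne_zero (K := kA A) _ h0
    refine ⟨hfin.toFinset.filter fun Q => 0 < Q.ord (xk A M - algebraMap (kA A) (FkM A M) c),
      ?_, ?_⟩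
    · obtain ⟨Q, hQ⟩ := Fermat.Agent.S18.H905.exists_place_ord_pos_fullC (kA A) M hchar _ ht
      refine ⟨Q, ?_⟩
      rw [Finset.mem_filter, Set.Finite.mem_toFinset]
      exact ⟨ne_of_gt hQ, hQ⟩
    · intro Q
      rw [Finset.mem_filter, Set.Finite.mem_toFinset]
      show _ ↔ InMax Q _
      constructor
      · rintro ⟨-, h⟩
        exact inMax_of_ord_pos h
      · intro h
        have := h.ord_pos h0
        exact ⟨ne_of_gt this, this⟩
  | none =>
    have h0 := ne_zero_of_transcendental hx
    have hfin := finite_ord_ne_zero (K := kA A) _ h0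
    refine ⟨hfin.toFinset.filter fun Q => Q.ord (xk A M) < 0, ?_, ?_⟩
    · obtain ⟨Q, hQ⟩ := Fermat.Agent.S18.H905.exists_place_ord_neg_fullC (kA A) M hchar _ hx
      refine ⟨Q, ?_⟩
      rw [Finset.mem_filter, Set.Finite.mem_toFinset]
      exact ⟨ne_of_lt hQ, hQ⟩
    · intro Q
      rw [Finset.mem_filter, Set.Finite.mem_toFinset]
      show _ ↔ Q.ord (xk A M) < 0
      constructor
      · rintro ⟨-, h⟩
        exact h
      · intro h
        exact ⟨ne_of_lt h, h⟩

/-- the fibre over `c` -/
theorem exists_fibre (hFC : FCStatement A M) (hLP : LPStatement A M) (hSEP : SEPStatement A M)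
    (c : Option (kA A)) :
    ∃ Φ : Fibre (ctx A M), Φ.𝔉 = tube A M c ∧ ∀ Q, Q ∈ Φ.𝔊 ↔ IsPt A M c Q := by
  haveI : FF1 Qb (FM M) := H864.ff1_modularFunctionFieldBar M
  obtain ⟨𝔊, hne, h𝔊⟩ := exists_pts M ℓ hℓ hℓM A hA c
  refine ⟨{ 𝔉 := tube A M c
            𝔊 := 𝔊
            ne := hne
            res := fun P _ f hf => exists_inMax_sub_of_deg FF1.deg_eq_one P f hf
            fin := fun u hu => (finite_ord_ne_zero (K := Qb) u hu).subset fun P hP => hP.2
            FC := fun u hu => hFC c 𝔊 h𝔊 u hu
            LP := fun Q hQ => by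
              obtain ⟨t, h1, h2, h3⟩ := hLP c Q ((h𝔊 Q).1 hQ)
              exact ⟨t, h1, h2, fun Q' hQ' hne' => h3 Q' ((h𝔊 Q').1 hQ') hne'⟩
            SEP := by
              obtain ⟨s, h1, h2⟩ := hSEP c
              exact ⟨s, h1, fun Q hQ Q' hQ' a ha ha' =>
                h2 Q Q' ((h𝔊 Q).1 hQ) ((h𝔊 Q').1 hQ') a ha ha'⟩ }, rfl, h𝔊⟩

/-- **node_rim from the leaves**: the place reduction map exists. -/
theorem node_rim_of_leaves (hFC : FCStatement A M) (hLP : LPStatement A M)
    (hSEP : SEPStatement A M) : ReductionInputsModL A M := by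
  haveI : IsAlgClosed (kA A) := Fermat.Agent.S18.H9.resAlgClosed _ A
  haveI : FF1 Qb (FM M) := H864.ff1_modularFunctionFieldBar M
  haveI : FF1 (kA A) (FkM A M) := Fermat.Agent.S18.H383.ff1_residue M ℓ hℓ hℓM A hA
  have hfib := exists_fibre M ℓ hℓ hℓM A hA hFC hLP hSEP
  choose Φ hΦ𝔉 hΦ𝔊 using hfib
  have hresK : ∀ (P : Place Qb (FM M)) (f : FM M), 0 ≤ P.ord f →
      ∃ c : Qb, InMax P (f - algebraMap Qb (FM M) c) :=
    fun P f hf => exists_inMax_sub_of_deg FF1.deg_eq_one P f hf
  have hresk : ∀ (Q : Place (kA A) (FkM A M)) (g : FkM A M), 0 ≤ Q.ord g →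
      ∃ a : kA A, InMax Q (g - algebraMap (kA A) (FkM A M) a) :=
    fun Q g hg => exists_inMax_sub_of_deg FF1.deg_eq_one Q g hg
  -- the atlas
  let 𝔄 : Atlas (ctx A M) (Option (kA A)) :=
    { Φ := Φ
      cover := by
        intro P
        by_cases h : ∃ a : A, InMax P (xF M - algebraMap Qb (FM M) (a : Qb))
        · obtain ⟨a, ha⟩ := h
          refine ⟨some (residue A a), ?_⟩
          rw [hΦ𝔉]
          exact ⟨a, rfl, ha⟩
        · refine ⟨none, ?_⟩
          rw [hΦ𝔉]
          exact h
      disj := by
        intro i j P hi hj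
        rw [hΦ𝔉] at hi hj
        cases i with
        | some c =>
          cases j with
          | some c' =>
            obtain ⟨a, rfl, ha⟩ := hi
            obtain ⟨a', rfl, ha'⟩ := hj
            have := value_unique ha ha'
            rw [Subtype.ext this]
          | none =>
            obtain ⟨a, -, ha⟩ := hi
            exact absurd ⟨a, ha⟩ hj
        | none =>
          cases j with
          | some c' =>
            obtain ⟨a, -, ha⟩ := hj
            exact absurd ⟨a, ha⟩ hi
          | none => rfl
      cover' := by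
        intro Q
        by_cases h : Q.ord (xk A M) < 0
        · exact ⟨none, (hΦ𝔊 none Q).2 h⟩
        · obtain ⟨a, ha⟩ := hresk Q (xk A M) (not_lt.mp h)
          exact ⟨some a, (hΦ𝔊 (some a) Q).2 ha⟩
      disj' := by
        intro i j Q hi hj
        have hi' := (hΦ𝔊 i Q).1 hi
        have hj' := (hΦ𝔊 j Q).1 hj
        cases i with
        | some c =>
          cases j with
          | some c' =>
            have : c = c' := value_unique (P := Q) hi' hj'
            rw [this]
          | none =>
            have h1 : 0 ≤ Q.ord (xk A M) := ord_nonneg_of_inMax_sub (P := Q) hi'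
            have h2 : Q.ord (xk A M) < 0 := hj'
            omega
        | none =>
          cases j with
          | some c' =>
            have h1 : 0 ≤ Q.ord (xk A M) := ord_nonneg_of_inMax_sub (P := Q) hj'
            have h2 : Q.ord (xk A M) < 0 := hi'
            omega
          | none => rfl }
  obtain ⟨r, hdeg, hr⟩ := exists_specialisesDivisors A (residue A) (FM M) (FkM A M)
    residue_surjective (residue_eq_zero_iff_not_isUnit A) 𝔄 hresK hresk
  exact ⟨r, ⟨hdeg, hr⟩, Fermat.Agent.S37.H98.gen M ℓ hℓ hℓM A hA⟩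

end Fermat.Agent.S37.Rim
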